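import Fermat.Agent.BAD.Toric.Content
import Fermat.Agent.BAD.TwoP.Normalise

/-!
# Contents of the `q`-th power of a Kummer function

From `f₀ = (w u) ^ q` with `f₀` and `w` integral and `w` without zeros: the expansions of `u ^ q`
have contents at all cusps, so a normalised multiple times a large power of `hasseL` is integral.
-/

set_option autoImplicit false

open UpperHalfPlane CongruenceSubgroup IsLocalRing
open scoped MatrixGroups

noncomputable section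

namespace FermatAgent.BAD.AtP

open FermatAgent.BAD.Toric (Normed HasContent coeff_C_mul' normed_inf_of_one)
open FermatAgent.ES (BSub BRing SerIn lexp lexp_eq hasLExp_lexp act zetaC AuxLevel CPlace GoodRoot)

variable {q M : ℕ} [hqp : Fact q.Prime] [NeZero M] {O : Subring ℂ} (haux : AuxLevel M 2)
  (hA : GoodRoot M O (zetaC M)) {P : CPlace q} (hO' : P.IsCDVR O) (hM : M.Coprime q)
  (hζ : zetaC (q * M) ∈ O) (hq2 : q ≠ 2) [IsDiscreteValuationRing O]
  {Nw f0 : LRing q M O} {u : ℍ → ℂ}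

omit [IsDiscreteValuationRing ↥O] in
theorem lexp_of_eq_mul (hu : u ^ q ∈ LSub q M)
    (hrel : (f0 : ℍ → ℂ) = (Nw : ℍ → ℂ) ^ q * u ^ q) (γ : SL(2, ℤ)) :
    serAt M O q γ f0 = serAt M O q γ Nw ^ q * lexp (q * M) γ (u ^ q) :=
  lexp_eq ((((hasLExp_lexp Nw.2.2.1 γ).pow q).mul (hasLExp_lexp hu.1 γ)).congr_fun fun τ => by
    simp only [ES.act_apply, Pi.mul_apply, Pi.pow_apply]
    show (f0 : ℍ → ℂ) (γ • τ) = _
    rw [hrel]
    rfl)

include haux hA hO' in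
/-- **The expansions have contents.** -/
theorem hasContent_kum (hu : u ^ q ∈ LSub q M) (hNw : ∀ τ, (Nw : ℍ → ℂ) τ ≠ 0) (hf0 : f0 ≠ 0)
    (hrel : (f0 : ℍ → ℂ) = (Nw : ℍ → ℂ) ^ q * u ^ q) (γ : SL(2, ℤ)) :
    HasContent P (lexp (q * M) γ (u ^ q)) := by
  obtain ⟨ϖ, hϖ⟩ := IsDiscreteValuationRing.exists_irreducible O
  have hinv := Toric.hasContent_inv_of_ne_zero haux hA hO' (f := Nw) hNw γ
  obtain ⟨j, v, hvO, hv, hs⟩ := exists_unit_part hO' hϖ (serIn_serAt γ f0)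
    (fun h => hf0 (serAt_injective γ (h.trans (map_zero _).symm)))
  have h1 : HasContent P (serAt M O q γ f0) := by
    rw [hs]
    exact (Normed.hasContent (P := P) ⟨fun k => hO'.le (hvO k), hv⟩).C_mul
      (pow_ne_zero j fun h0 => hϖ.ne_zero (Subtype.ext h0))
  have h2 := h1.mul (hinv.pow q)
  rw [lexp_of_eq_mul hu hrel, mul_right_comm, ← mul_pow,
    mul_inv_cancel₀ (fun h => hinv.ne_zero (inv_eq_zero.mpr h)), one_pow, one_mul] at h2
  exact h2

include haux hA hO' hM hζ hq2 in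
/-- **A large power of `hasseL` makes a normalised function integral.** -/
theorem exists_integral_bound {X0 : ℍ → ℂ} (hX0 : X0 ∈ LSub q M)
    (hc : ∀ γ, HasContent P (lexp (q * M) γ X0))
    (hinf : ∀ γ ∈ Gamma0 q, Normed P (lexp (q * M) γ X0)) :
    ∃ E : ℕ, ∀ e, E ≤ e → ∃ X : LRing q M P.ring,
      (X : ℍ → ℂ) = (hasseL haux hM hA hζ : ℍ → ℂ) ^ e * X0 ∧ UnitInf P X := by
  classical
  obtain ⟨ϖ, hϖ⟩ := IsDiscreteValuationRing.exists_irreducible O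
  set H := hasseL haux hM hA hζ
  have hπ0 : (ϖ : ℂ) ≠ 0 := fun h => hϖ.ne_zero (Subtype.ext h)
  have hπ1 : P.abv (ϖ : ℂ) < 1 :=
    (hO'.mem_maximalIdeal_iff _).mp ((mem_maximalIdeal _).mpr hϖ.not_isUnit)
  choose a ha hn using hc
  -- finitely many cusps
  let R := Set.range (ES.modMat (q * M) : SL(2, ℤ) → _)
  have : Finite R := Subtype.finite
  have : Fintype R := Fintype.ofFinite _
  choose γR hγR using fun r : R => r.2
  obtain ⟨E, hE⟩ : ∃ E : ℕ, ∀ (r : R) (e : ℕ), E ≤ e → P.abv (ϖ : ℂ) ^ e ≤ P.abv (a (γR r)) := by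
    choose k hk using fun r : R => exists_pow_lt_of_lt_one (P.abv.pos (ha (γR r))) hπ1
    refine ⟨Finset.univ.sup k, fun r e he => le_trans ?_ (hk r).le⟩
    exact pow_le_pow_of_le_one (P.abv.nonneg _) hπ1.le
      ((Finset.le_sup (Finset.mem_univ r)).trans he)
  refine ⟨E, fun e he => ?_⟩
  have hmem : (H : ℍ → ℂ) ^ e * X0 ∈ LSub q M := mul_mem (pow_mem H.2.2 e) hX0
  have hser : ∀ γ, lexp (q * M) γ ((H : ℍ → ℂ) ^ e * X0) =
      serAt M O q γ H ^ e * lexp (q * M) γ X0 := fun γ =>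
    lexp_eq ((((hasLExp_lexp H.2.2.1 γ).pow e).mul (hasLExp_lexp hX0.1 γ)).congr_fun fun τ => by
      simp only [ES.act_apply, Pi.mul_apply, Pi.pow_apply])
  have hHn : ∀ γ ∈ Gamma0 q, Normed P (serAt M O q γ H ^ e) := fun γ hγ =>
    (Normed.pow (P := P) ⟨fun k => hO'.le (serIn_serAt γ H k),
      hasseL_unitInf haux hM hA hζ hO'.le hq2 γ hγ⟩ e)
  have hsmall : ∀ γ, γ ∉ Gamma0 q → ∀ i : ℤ,
      P.abv ((serAt M O q γ H).coeff i) ≤ P.abv (ϖ : ℂ) := by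
    intro γ hγ i
    have h1 : (⟨_, serIn_serAt γ H i⟩ : O) ∈ maximalIdeal O :=
      (hO'.mem_maximalIdeal_iff _).mpr (hasseL_mem_pZero haux hM hA hζ hO'.le γ hγ i)
    rw [hϖ.maximalIdeal_eq, Ideal.mem_span_singleton'] at h1
    obtain ⟨c, hc⟩ := h1
    have h2 := congrArg (fun x : O => P.abv (x : ℂ)) hc
    simp only [Subring.coe_mul, map_mul] at h2
    rw [← h2]
    exact mul_le_of_le_one_left (P.abv.nonneg _) (hO'.le c.2)
  have hint : ∀ γ, SerIn P.ring (lexp (q * M) γ ((H : ℍ → ℂ) ^ e * X0)) := by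
    intro γ
    by_cases hγ : γ ∈ Gamma0 q
    · rw [hser]; exact ((hHn γ hγ).mul (hinf γ hγ)).1
    set r : R := ⟨_, γ, rfl⟩
    have hrep : ∀ f ∈ BSub (q * M), lexp (q * M) γ f = lexp (q * M) (γR r) f := fun f hf =>
      TwoP.lexp_of_modMat hf (hγR r).symm
    have hγr : γR r ∉ Gamma0 q := by
      intro h
      refine hγ (Gamma0_mem.mpr ?_)
      have h2 := congrFun (congrFun (hγR r) 1) 0
      simp only [r, ES.modMat, Matrix.map_apply] at h2
      have h3 := congrArg (ZMod.castHom (dvd_mul_right q M) (ZMod q)) h2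
      simp only [eq_intCast, map_intCast] at h3
      rw [← h3]
      exact Gamma0_mem.mp h
    rw [hrep _ hmem.1, hser]
    set s' := HahnSeries.C (ϖ : ℂ)⁻¹ * serAt M O q (γR r) H
    have hs' : SerIn P.ring s' := fun i => by
      rw [coeff_C_mul', P.mem_ring, map_mul, map_inv₀,
        inv_mul_le_iff₀ (P.abv.pos hπ0), mul_one]
      exact hsmall _ hγr i
    have hconst : P.abv ((ϖ : ℂ) ^ e * (a (γR r))⁻¹) ≤ 1 := by
      rw [map_mul, map_pow, map_inv₀, mul_inv_le_iff₀ (P.abv.pos (ha _)), one_mul]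
      exact hE r e he
    rw [show serAt M O q (γR r) H ^ e * lexp (q * M) (γR r) X0 =
      HahnSeries.C ((ϖ : ℂ) ^ e * (a (γR r))⁻¹) *
        (s' ^ e * (HahnSeries.C (a (γR r)) * lexp (q * M) (γR r) X0)) by
      rw [mul_pow, ← map_pow HahnSeries.C,
        show ∀ (x y z : ℂ) (S L : LaurentSeries ℂ), HahnSeries.C x *
            (HahnSeries.C y * S * (HahnSeries.C z * L)) = HahnSeries.C (x * y * z) * (S * L) from
          fun x y z S L => by rw [map_mul, map_mul]; ring,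
        show (ϖ : ℂ) ^ e * (a (γR r))⁻¹ * (ϖ : ℂ)⁻¹ ^ e * a (γR r) = 1 by
          rw [inv_pow]; field_simp [ha (γR r)], map_one, one_mul]]
    intro i
    rw [coeff_C_mul', P.mem_ring, map_mul]
    exact mul_le_one₀ hconst (P.abv.nonneg _) (((hs'.pow e).mul (hn _).1) i)
  refine ⟨⟨_, mem_LRing.mpr ⟨hmem, hint⟩⟩, rfl, fun γ hγ => ?_⟩
  rw [serAt_apply]
  show P.UnitCoeff (lexp (q * M) γ ((H : ℍ → ℂ) ^ e * X0))
  rw [hser]
  exact ((hHn γ hγ).mul (hinf γ hγ)).2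

include hO' hM hζ hq2 hA in
/-- **The normalised function with a divisible power of `hasseL`.** -/
theorem exists_kum_unit (hf0 : f0 ≠ 0)
    (hrel : (f0 : ℍ → ℂ) = (Nw : ℍ → ℂ) ^ q * u ^ q)
    (hinv : ∀ δ ∈ lam q 2, act δ (Nw : ℍ → ℂ) = Nw) :
    ∃ (g : LRing q M O) (s : ℍ → ℂ) (r j : ℕ) (B : LRing q M O) (π : O),
      Irreducible π ∧ UnitInf P B ∧ q ∣ r + j ∧ UnitInf P g ∧ s ∈ LSub q M ∧
      (∀ δ ∈ lam q 2, act δ s = s) ∧ (g : ℍ → ℂ) = (s * u) ^ q ∧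
      g = hasseL haux hM hA hζ ^ r * B ∧
      hasseL haux hM hA hζ ^ j * f0 = constL (π ^ j) * B := by
  obtain ⟨π, hπ⟩ := IsDiscreteValuationRing.exists_irreducible O
  obtain ⟨j, B, hB, heB⟩ := exists_normal_inf haux hA hO'.le hM hζ hq2 hO' hπ hf0
  set H := hasseL haux hM hA hζ
  set r := (q - 1) * j
  have hrj : r + j = q * j := by
    simp only [r]
    rw [← Nat.succ_mul]
    congr 1
    have := hqp.out.one_le
    omega
  have hπ0 : (π : ℂ) ≠ 0 := fun h => hπ.ne_zero (Subtype.ext h)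
  obtain ⟨c, hc⟩ := IsAlgClosed.exists_pow_nat_eq (((π : ℂ) ^ j)⁻¹) hqp.out.pos
  set s : ℍ → ℂ := (fun _ => c) * (H : ℍ → ℂ) ^ j * (Nw : ℍ → ℂ)
  refine ⟨H ^ r * B, s, r, j, B, π, hπ, hB, ⟨j, hrj⟩,
    ((hasseL_unitInf haux hM hA hζ hO'.le hq2).pow hO'.le r).mul hO'.le hB,
    mul_mem (mul_mem ((LSub q M).algebraMap_mem c) (pow_mem H.2.2 j)) Nw.2.2, fun δ hδ => ?_,
    funext fun τ => ?_, rfl, heB⟩
  · have h1 := congrFun (TwoP.act_hasseL haux hA hM hζ hq2 hδ)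
    have h2 := congrFun (hinv δ hδ)
    funext τ
    simp only [ES.act_apply] at h1 h2
    simp only [s, H, ES.act_apply, Pi.mul_apply, Pi.pow_apply, h1, h2]
  · have h := congrFun (congrArg Subtype.val heB) τ
    have h' := congrFun hrel τ
    simp only [Pi.mul_apply, Pi.pow_apply] at h'
    change (H : ℍ → ℂ) τ ^ j * (f0 : ℍ → ℂ) τ = ((π ^ j : O) : ℂ) * (B : ℍ → ℂ) τ at h
    rw [SubmonoidClass.coe_pow] at h
    show (H : ℍ → ℂ) τ ^ r * (B : ℍ → ℂ) τ = (s τ * u τ) ^ q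
    simp only [s, Pi.mul_apply, Pi.pow_apply]
    rw [mul_pow, mul_pow, mul_pow, hc, ← pow_mul, mul_comm j q, ← hrj, pow_add,
      show ((π : ℂ) ^ j)⁻¹ * ((H : ℍ → ℂ) τ ^ r * (H : ℍ → ℂ) τ ^ j) *
        (Nw : ℍ → ℂ) τ ^ q * u τ ^ q =
        ((π : ℂ) ^ j)⁻¹ * (H : ℍ → ℂ) τ ^ r * ((H : ℍ → ℂ) τ ^ j *
          ((Nw : ℍ → ℂ) τ ^ q * u τ ^ q)) by ring, ← h', h]
    field_simp

end FermatAgent.BAD.AtP
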