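import Fermat.Agent.BAD.AtP.Kum.Content
import Fermat.Agent.BAD.TwoP.Rat

/-!
# Orders of the normalised function

Along any place of the component at `∞` the order of `hasseL ^ e C u ^ q` is, modulo `q`, that of
the Kummer unit plus `e` times that of `hasseL`.
-/

set_option autoImplicit false

open UpperHalfPlane CongruenceSubgroup IsLocalRing
open scoped MatrixGroups

noncomputable section

namespace FermatAgent.BAD.AtP

open FermatAgent.BAD.Toric (Normed)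
open FermatAgent.ES (BSub BRing SerIn lexp lexp_eq hasLExp_lexp act zetaC AuxLevel CPlace GoodRoot)

variable {q M : ℕ} [hqp : Fact q.Prime] [NeZero M] {O : Subring ℂ} (haux : AuxLevel M 2)
  (hA : GoodRoot M O (zetaC M)) {P : CPlace q} (hO' : P.IsCDVR O) (hM : M.Coprime q)
  (hζ : zetaC (q * M) ∈ O) (hq2 : q ≠ 2) [IsDiscreteValuationRing O]
  {Nw f0 : LRing q M O} {u : ℍ → ℂ}

include haux hA hO' hM hζ hq2 in
/-- **The relation with the Kummer unit.** -/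
theorem exists_kum_relation (hu : u ^ q ∈ LSub q M) (hNw : ∀ τ, (Nw : ℍ → ℂ) τ ≠ 0)
    (hrel : (f0 : ℍ → ℂ) = (Nw : ℍ → ℂ) ^ q * u ^ q) {C : ℂ}
    (hC : Normed P (lexp (q * M) 1 ((fun _ => C) * u ^ q))) {j : ℕ} {B : LRing q M O} {π : O}
    (hB : UnitInf P B)
    (heB : hasseL haux hM hA hζ ^ j * f0 = constL (π ^ j) * B) {e : ℕ} {X : LRing q M P.ring}
    (hX : (X : ℍ → ℂ) = (hasseL haux hM hA hζ : ℍ → ℂ) ^ e * ((fun _ => C) * u ^ q)) :
    ∃ (j1 : ℕ) (A : LRing q M O) (c : P.ringˣ),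
      inclL hO'.le A ^ q * inclL hO'.le (hasseL haux hM hA hζ) ^ j * X =
        constL (c : P.ring) * inclL hO'.le (hasseL haux hM hA hζ) ^ (e + q * j1) *
          inclL hO'.le B := by
  obtain ⟨ϖ, hϖ⟩ := IsDiscreteValuationRing.exists_irreducible O
  have hNw0 : Nw ≠ 0 := fun h => hNw UpperHalfPlane.I (congrFun (congrArg Subtype.val h) _)
  obtain ⟨j1, A, hA1, heA⟩ := exists_normal_inf haux hA hO'.le hM hζ hq2 hO' hϖ hNw0
  set H := hasseL haux hM hA hζ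
  have hϖ0 : (ϖ : ℂ) ≠ 0 := fun h => hϖ.ne_zero (Subtype.ext h)
  set c0 : ℂ := C * (π : ℂ) ^ j * (((ϖ : ℂ) ^ j1) ^ q)⁻¹
  have hfun : ((inclL hO'.le A ^ q * inclL hO'.le H ^ j * X : LRing q M P.ring) : ℍ → ℂ) =
      (fun _ => c0) * ((H : ℍ → ℂ) ^ (e + q * j1) * (B : ℍ → ℂ)) := by
    funext τ
    show (A : ℍ → ℂ) τ ^ q * (H : ℍ → ℂ) τ ^ j * (X : ℍ → ℂ) τ = _
    have hA' := congrFun (congrArg Subtype.val heA) τ
    have hB' := congrFun (congrArg Subtype.val heB) τ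
    have h' := congrFun hrel τ
    change (H : ℍ → ℂ) τ ^ j1 * (Nw : ℍ → ℂ) τ = ((ϖ ^ j1 : O) : ℂ) * (A : ℍ → ℂ) τ at hA'
    change (H : ℍ → ℂ) τ ^ j * (f0 : ℍ → ℂ) τ = ((π ^ j : O) : ℂ) * (B : ℍ → ℂ) τ at hB'
    simp only [SubmonoidClass.coe_pow] at hA' hB'
    simp only [Pi.mul_apply, Pi.pow_apply] at h' ⊢
    rw [h'] at hB'
    rw [hX]
    simp only [Pi.mul_apply, Pi.pow_apply, c0]
    have hA'' : (A : ℍ → ℂ) τ = (H : ℍ → ℂ) τ ^ j1 * (Nw : ℍ → ℂ) τ / (ϖ : ℂ) ^ j1 := by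
      rw [hA', mul_div_cancel_left₀ _ (pow_ne_zero _ hϖ0)]
    rw [hA'', div_pow, mul_pow, pow_add, mul_comm q j1, pow_mul ((H : ℍ → ℂ) τ)]
    field_simp
    linear_combination (C * ((H : ℍ → ℂ) τ ^ j1) ^ q * (H : ℍ → ℂ) τ ^ e) * hB'
  -- the constant is a unit
  have hn : ∀ (x : LRing q M O), UnitInf P x → Normed P (serAt M O q 1 x) := fun x hx =>
    ⟨fun k => hO'.le (serIn_serAt 1 x k), hx 1 (one_mem _)⟩
  have hHn := hn H (hasseL_unitInf haux hM hA hζ hO'.le hq2)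
  have hL : Normed P (serAt M O q 1 A ^ q * serAt M O q 1 H ^ j *
      (serAt M O q 1 H ^ e * lexp (q * M) 1 ((fun _ => C) * u ^ q))) :=
    (((hn A hA1).pow q).mul (hHn.pow j)).mul ((hHn.pow e).mul hC)
  have hR : Normed P (serAt M O q 1 H ^ (e + q * j1) * serAt M O q 1 B) :=
    (hHn.pow _).mul (hn B hB)
  have hXs : lexp (q * M) 1 (X : ℍ → ℂ) =
      serAt M O q 1 H ^ e * lexp (q * M) 1 ((fun _ => C) * u ^ q) := by
    have hCu : (fun _ : ℍ => C) * u ^ q ∈ LSub q M := mul_mem ((LSub q M).algebraMap_mem C) hu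
    rw [hX]
    exact lexp_eq ((((hasLExp_lexp H.2.2.1 1).pow e).mul (hasLExp_lexp hCu.1 1)).congr_fun
      fun τ => by simp only [ES.act_apply, Pi.mul_apply, Pi.pow_apply])
  have heq : serAt M O q 1 A ^ q * serAt M O q 1 H ^ j *
      (serAt M O q 1 H ^ e * lexp (q * M) 1 ((fun _ => C) * u ^ q)) =
        HahnSeries.C c0 * (serAt M O q 1 H ^ (e + q * j1) * serAt M O q 1 B) := by
    rw [← hXs]
    refine (lexp_eq (γ := 1) (f := (fun _ => c0) * ((H : ℍ → ℂ) ^ (e + q * j1) * (B : ℍ → ℂ)))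
      ?_).symm.trans
      (lexp_eq (((ES.HasLExp.const c0).mul (((hasLExp_lexp H.2.2.1 1).pow _).mul
        (hasLExp_lexp B.2.2.1 1))).congr_fun fun τ => by
          simp only [ES.act_apply, Pi.mul_apply, Pi.pow_apply]))
    rw [← hfun]
    exact (((hasLExp_lexp A.2.2.1 1).pow q).mul ((hasLExp_lexp H.2.2.1 1).pow j)).mul
      (hasLExp_lexp X.2.2.1 1)
  have habs : P.abv c0 = 1 := hR.abv_eq_one (heq ▸ hL)
  have hc0 : c0 ≠ 0 := fun h => by simp [h] at habs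
  refine ⟨j1, A, ⟨⟨c0, habs.le⟩, ⟨c0⁻¹, by rw [P.mem_ring, map_inv₀, habs, inv_one]⟩,
    Subtype.ext (mul_inv_cancel₀ hc0), Subtype.ext (inv_mul_cancel₀ hc0)⟩, Subtype.ext ?_⟩
  rw [hfun]
  funext τ
  show c0 * ((H : ℍ → ℂ) τ ^ (e + q * j1) * (B : ℍ → ℂ) τ) =
    c0 * (H : ℍ → ℂ) τ ^ (e + q * j1) * (B : ℍ → ℂ) τ
  ring

include haux hA hO' hM hζ hq2 in
/-- **The order of the normalised function along a place.** -/
theorem order_kum_eq (hu : u ^ q ∈ LSub q M) (hNw : ∀ τ, (Nw : ℍ → ℂ) τ ≠ 0)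
    (hrel : (f0 : ℍ → ℂ) = (Nw : ℍ → ℂ) ^ q * u ^ q) {C : ℂ}
    (hC : Normed P (lexp (q * M) 1 ((fun _ => C) * u ^ q))) {j r : ℕ} (hrj : q ∣ r + j)
    {g B : LRing q M O} {π : O}
    (hB : UnitInf P B) (hg : g = hasseL haux hM hA hζ ^ r * B)
    (heB : hasseL haux hM hA hζ ^ j * f0 = constL (π ^ j) * B) {e : ℕ} {X : LRing q M P.ring}
    (hX : (X : ℍ → ℂ) = (hasseL haux hM hA hζ : ℍ → ℂ) ^ e * ((fun _ => C) * u ^ q))
    {k : Type} [Field k] (β : LRing q M P.ring →+* LaurentSeries k) {φ : P.ring →+* k}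
    (hβ : ∀ c : P.ring, β (constL c) = HahnSeries.C (φ c))
    (hg0 : β (inclL hO'.le g) ≠ 0) (hH0 : β (inclL hO'.le (hasseL haux hM hA hζ)) ≠ 0) :
    β X ≠ 0 ∧ (q : ℤ) ∣ (β X).order -
      ((e : ℤ) * (β (inclL hO'.le (hasseL haux hM hA hζ))).order +
        (β (inclL hO'.le g)).order) := by
  obtain ⟨j1, A, c, hR⟩ := exists_kum_relation haux hA hO' hM hζ hq2 hu hNw hrel hC hB heB hX
  rw [hg, map_mul, map_pow, map_mul, map_pow] at hg0
  set bH := β (inclL hO'.le (hasseL haux hM hA hζ))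
  have hB0 : β (inclL hO'.le B) ≠ 0 := right_ne_zero_of_mul hg0
  have h1 := congrArg β hR
  simp only [map_mul, map_pow] at h1
  have hc : β (constL (c : P.ring)) ≠ 0 := ((c.isUnit.map constL).map β).ne_zero
  have hrhs : β (constL (c : P.ring)) * bH ^ (e + q * j1) * β (inclL hO'.le B) ≠ 0 :=
    mul_ne_zero (mul_ne_zero hc (pow_ne_zero _ hH0)) hB0
  have hlhs := h1.trans_ne hrhs
  have hA0 : β (inclL hO'.le A) ≠ 0 := fun h => hlhs (by
    rw [h, zero_pow hqp.out.ne_zero, zero_mul, zero_mul])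
  have hX0 : β X ≠ 0 := right_ne_zero_of_mul hlhs
  refine ⟨hX0, ?_⟩
  have hcord : (β (constL (c : P.ring))).order = 0 := by
    rw [hβ, HahnSeries.order_C]
  have h2 := congrArg HahnSeries.order h1
  rw [HahnSeries.order_mul (mul_ne_zero (pow_ne_zero _ hA0) (pow_ne_zero _ hH0)) hX0,
    HahnSeries.order_mul (pow_ne_zero _ hA0) (pow_ne_zero _ hH0),
    HahnSeries.order_mul (mul_ne_zero hc (pow_ne_zero _ hH0)) hB0,
    HahnSeries.order_mul hc (pow_ne_zero _ hH0), TwoP.order_pow' hA0, TwoP.order_pow' hH0,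
    TwoP.order_pow' hH0, hcord, zero_add] at h2
  rw [hg, map_mul, map_pow, map_mul, map_pow, HahnSeries.order_mul (pow_ne_zero _ hH0) hB0,
    TwoP.order_pow' hH0]
  obtain ⟨d, hd⟩ := hrj
  have hd' : (r : ℤ) + j = q * d := by exact_mod_cast hd
  refine ⟨(j1 : ℤ) * bH.order - (β (inclL hO'.le A)).order - d * bH.order, ?_⟩
  push_cast at h2
  linear_combination h2 - bH.order * hd'

end FermatAgent.BAD.AtP
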